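import Fermat.Agent.H61.SS2.AsmGlobalAbs
import Fermat.Agent.H35.SS2.AsmBase
import Fermat.Agent.H7.SS2.Vertical
import Fermat.Agent.H38.SS2.Gen3
import Fermat.Agent.H66.SS.FracVal

/-!
# P-SS2 row 905 (b) ASM, part (G) GLOBAL, concrete layer (helper61)

`asmGlobal_of_val3` : the global package `Fermat.Agent.H35.SS2.AsmGlobal` of the model of level
`M' q²` over an unramified base `OK` (a discrete valuation subring of the number field `K₁` with
uniformiser `q`), from the keystone `Fermat.Agent.H11.SS2.Val3Data` for the two Gauss valuations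
`O₁ = vInf`, `O₂ = vZero W` of level `M' q` (helper7) and ANY three valuations `V20, V11, V02` of
level `M' q²`.

Inputs (all landed): helper7 `mem_gaussClosure_iff_vInf_vZero` (level `M' q`), helper83 `val3`
(through `asmAbs_gauss`), helper37 weak approximation, helper68 `normRedConstAt_val3`, helper38
`modelE1` (both degrees are `q`), helper35 `asm_transcendental`.
-/

set_option autoImplicit false
set_option linter.style.haveILetI false
set_option linter.unusedSectionVars false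
set_option maxSynthPendingDepth 3
set_option synthInstance.maxHeartbeats 400000
set_option maxHeartbeats 1600000

noncomputable section

namespace Fermat.Agent.H61.SS2

open ModularCurve AlgebraicCurve
open Fermat.Agent.H22.KL Fermat.Agent.H11.SS2 Fermat.Agent.H68.SS2 Fermat.Agent.H19.SS2
open Fermat.Agent.H35.SS2 Fermat.Agent.H7.SS Fermat.Agent.H7.SS2 Fermat.Agent.H82.SS
open Fermat.Agent.H48.QExp Fermat.Agent.H66.SS

section Comap

variable (N : ℕ) (K₁ : Type) [Field K₁] [Algebra ℚ K₁] (OK : ValuationSubring K₁)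
  [IsDiscreteValuationRing ↥OK]

/-- The constants of `V_∞` are the elements of `OK`. -/
theorem vInf_comap :
    (vInf K₁ ↥OK N).comap (algebraMap K₁ (ModelField K₁ N)) = OK := by
  ext c
  rw [ValuationSubring.mem_comap, mem_vInf_iff]
  have hcoe : ∀ d : K₁, ((algebraMap K₁ (ModelField K₁ N) d : ModelField K₁ N) :
      LaurentSeries K₁) = algebraMap K₁ (LaurentSeries K₁) d := fun d => rfl
  have hlift : ∀ d : ↥OK, algebraMap K₁ (LaurentSeries K₁) (d : K₁) =
      gIota K₁ ↥OK (algebraMap ↥OK (LaurentSeries ↥OK) d) := by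
    intro d
    rw [gIota, coeffMap_algebraMap_gen]
    rfl
  rw [hcoe]
  constructor
  · intro h
    by_contra hc
    have hc0 : c ≠ 0 := by
      rintro rfl
      exact hc OK.zero_mem
    have hinv : c⁻¹ ∈ OK := (OK.mem_or_inv_mem c).resolve_left hc
    have hnu : ¬ IsUnit (⟨c⁻¹, hinv⟩ : ↥OK) := by
      intro hu
      obtain ⟨d, hd⟩ := isUnit_iff_exists_inv.mp hu
      have h1 : c⁻¹ * (d : K₁) = 1 := congrArg Subtype.val hd
      have h2 : (d : K₁) = c := by
        rw [← mul_one c, ← h1, ← mul_assoc, mul_inv_cancel₀ hc0, one_mul]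
      exact hc (h2 ▸ d.2)
    have hM : InM (A₀ := ↥OK) (laurentBaseChange K₁ (modularFunctionFieldFull N))
        (algebraMap K₁ (LaurentSeries K₁) c⁻¹) := by
      refine fv_inM_of_lift _ ?_ (algebraMap ↥OK (LaurentSeries ↥OK) ⟨c⁻¹, hinv⟩)
        (hlift ⟨c⁻¹, hinv⟩) ?_
      · exact (algebraMap K₁ (ModelField K₁ N) c⁻¹).2
      · rw [gRho, coeffMap_algebraMap_gen,
          (IsLocalRing.residue_eq_zero_iff _).2 ((IsLocalRing.mem_maximalIdeal _).2 hnu),
          map_zero]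
    have hz0 : algebraMap K₁ (LaurentSeries K₁) c⁻¹ ≠ 0 := by
      rw [Ne, map_eq_zero]
      exact inv_ne_zero hc0
    have h3 := hM.not_inV_inv _ hz0
    rw [← map_inv₀, inv_inv] at h3
    exact h3 h
  · intro hc
    exact fv_inV_of_lift _ (algebraMap K₁ (ModelField K₁ N) c).2
      (algebraMap ↥OK (LaurentSeries ↥OK) ⟨c, hc⟩) (hlift ⟨c, hc⟩)

/-- The constants of `V_0` are the elements of `OK`. -/
theorem vZero_comap (W : ModelField K₁ N ≃ₐ[K₁] ModelField K₁ N) :
    (vZero K₁ ↥OK N W).comap (algebraMap K₁ (ModelField K₁ N)) = OK := by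
  ext c
  rw [ValuationSubring.mem_comap, mem_vZero_iff, W.commutes, ← ValuationSubring.mem_comap,
    vInf_comap]

end Comap

/-- **(G) GLOBAL**: the global package of the model of level `M' q²` from `Val3Data`. -/
theorem asmGlobal_of_val3 (M' q : ℕ) [NeZero M'] [NeZero q] (hq : q.Prime) (hqM : ¬ q ∣ M')
    (K₁ : Type) [Field K₁] [Algebra ℚ K₁] [FiniteDimensional ℚ K₁] (OK : ValuationSubring K₁)
    [IsDiscreteValuationRing ↥OK]
    [Algebra ↥OK (ModelField K₁ (M' * q))] [IsScalarTower ↥OK K₁ (ModelField K₁ (M' * q))]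
    [Algebra ↥OK (ModelField K₁ (M' * q * q))]
    [IsScalarTower ↥OK K₁ (ModelField K₁ (M' * q * q))]
    (hirr : Irreducible ((q : ℕ) : ↥OK))
    (W : ModelField K₁ (M' * q) ≃ₐ[K₁] ModelField K₁ (M' * q))
    (hW : IsAtkinLehnerModel K₁ M' q W)
    (x : ModelField K₁ (M' * q * q)) (hx : (x : LaurentSeries K₁) = jqModC K₁)
    (V20 V11 V02 : ValuationSubring (ModelField K₁ (M' * q * q)))
    (Y₁ : ModelField K₁ (M' * q)) (Z : ModelField K₁ (M' * q * q))
    (h : Val3Data (asmα M' q K₁) (asmβ M' q K₁) (vInf K₁ ↥OK (M' * q))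
      (vZero K₁ ↥OK (M' * q) W) V20 V11 V02 q Y₁ Z) :
    AsmGlobal M' q K₁ OK x (vInf K₁ ↥OK (M' * q)) (vZero K₁ ↥OK (M' * q) W) V20 V11 V02 Y₁ Z := by
  classical
  haveI : CharZero K₁ := algebraRat.charZero K₁
  haveI : CharZero (ModelField K₁ (M' * q)) :=
    charZero_of_injective_algebraMap (algebraMap K₁ (ModelField K₁ (M' * q))).injective
  haveI hMq : NeZero (M' * q) := ⟨Nat.mul_ne_zero (NeZero.ne M') (NeZero.ne q)⟩
  have hcop : Nat.Coprime M' q := ((Nat.Prime.coprime_iff_not_dvd hq).2 hqM).symm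
  have hqA : ¬ IsUnit ((q : ℕ) : ↥OK) := hirr.not_isUnit
  have hprime : Prime ((q : ℕ) : ↥OK) := hirr.prime
  -- the chart at level `M' q`
  have hxFmem : jqModC K₁ ∈ laurentBaseChange K₁ (modularFunctionFieldFull (M' * q)) := by
    rw [← ss2_coeffEmb_jq]
    exact coeffEmb_mem_laurentBaseChange K₁ (jqModC_mem_full ℚ (M' * q))
  obtain ⟨xF, hxF⟩ : ∃ xF : ModelField K₁ (M' * q), (xF : LaurentSeries K₁) = jqModC K₁ :=
    ⟨⟨_, hxFmem⟩, rfl⟩
  have hxF' : (xF : LaurentSeries K₁) = coeffEmb K₁ jq := by rw [ss2_coeffEmb_jq]; exact hxF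
  have hαx : asmα M' q K₁ xF = x := ss2_alpha_chart (M' * q) q K₁ x xF hx hxF
  have hxtr : Transcendental ↥OK xF := asm_transcendental (M' * q) K₁ OK xF hxF
  -- level `M' q`
  have hpir₁ : IsPrincipalIdealRing (vInf K₁ ↥OK (M' * q)) := isPrincipalIdealRing_vInf hirr
  have hpir₂ : IsPrincipalIdealRing (vZero K₁ ↥OK (M' * q) W) :=
    isPrincipalIdealRing_vZero W hirr
  have hqF : algebraMap ↥OK (ModelField K₁ (M' * q)) ((q : ℕ) : ↥OK) =
      ((q : ℕ) : ModelField K₁ (M' * q)) := map_natCast _ q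
  have hu₁ : DKUnif (vInf K₁ ↥OK (M' * q)) ((q : ℕ) : ModelField K₁ (M' * q)) := by
    have := isUniformiser_vInf (K₁ := K₁) (A₀ := ↥OK) (N := M' * q) hirr
    rwa [hqF] at this
  have hu₂ : DKUnif (vZero K₁ ↥OK (M' * q) W) ((q : ℕ) : ModelField K₁ (M' * q)) := by
    have := isUniformiser_vZero (K₁ := K₁) (A₀ := ↥OK) (N := M' * q) W hirr
    rwa [hqF] at this
  have hc₁ := vInf_comap (M' * q) K₁ OK
  have hc₂ := vZero_comap (M' * q) K₁ OK W
  have hO : vInf K₁ ↥OK (M' * q) ≠ vZero K₁ ↥OK (M' * q) W := by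
    intro hEq
    apply h.ne₂
    apply h.allα₂
    rw [← hEq]
    exact h.comap₂₀α
  have hgauss : ∀ z : ModelField K₁ (M' * q),
      z ∈ gaussClosure ↥OK (ModelField K₁ (M' * q)) ((q : ℕ) : ↥OK) xF ↔
        z ∈ vInf K₁ ↥OK (M' * q) ∧ z ∈ vZero K₁ ↥OK (M' * q) W := fun z =>
    mem_gaussClosure_iff_vInf_vZero M' q K₁ ↥OK hqA _ hirr xF hxF' W hW hq hqM z
  -- degrees
  obtain ⟨hdegα, hdegβ⟩ := (Fermat.Agent.H38.SS2.modelE1 M' q hq hcop).1 K₁
  have hdα : @FiniteDimensional (ModelField K₁ (M' * q)) (ModelField K₁ (M' * q * q)) _ _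
        (@Algebra.toModule _ _ _ _ (asmα M' q K₁).toAlgebra) ∧
      @Module.finrank (ModelField K₁ (M' * q)) (ModelField K₁ (M' * q * q)) _ _
        (@Algebra.toModule _ _ _ _ (asmα M' q K₁).toAlgebra) = q := hdegα
  have hdβ : @FiniteDimensional (ModelField K₁ (M' * q)) (ModelField K₁ (M' * q * q)) _ _
        (@Algebra.toModule _ _ _ _ (asmβ M' q K₁).toAlgebra) ∧
      @Module.finrank (ModelField K₁ (M' * q)) (ModelField K₁ (M' * q * q)) _ _
        (@Algebra.toModule _ _ _ _ (asmβ M' q K₁).toAlgebra) = q := hdegβ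
  -- compatibility with the base
  have hαA : ∀ a : ↥OK, asmα M' q K₁ (algebraMap ↥OK (ModelField K₁ (M' * q)) a) =
      algebraMap ↥OK (ModelField K₁ (M' * q * q)) a := by
    intro a
    rw [asm_algebraMap_model, asm_algebraMap_model]
    exact (heckeAlphaBar K₁ (M' * q) q).commutes _
  have hβA : ∀ a : ↥OK, asmβ M' q K₁ (algebraMap ↥OK (ModelField K₁ (M' * q)) a) =
      algebraMap ↥OK (ModelField K₁ (M' * q * q)) a := by
    intro a
    rw [asm_algebraMap_model, asm_algebraMap_model]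
    exact (heckeBetaBar K₁ (M' * q) q).commutes _
  have hA₁ : ∀ a : ↥OK, algebraMap ↥OK (ModelField K₁ (M' * q)) a ∈ vInf K₁ ↥OK (M' * q) := by
    intro a
    rw [asm_algebraMap_model, ← ValuationSubring.mem_comap, hc₁]
    exact a.2
  have hA₂ : ∀ a : ↥OK,
      algebraMap ↥OK (ModelField K₁ (M' * q)) a ∈ vZero K₁ ↥OK (M' * q) W := by
    intro a
    rw [asm_algebraMap_model, ← ValuationSubring.mem_comap, hc₂]
    exact a.2
  -- the upper level
  obtain ⟨g1, g2, g3, g4, g5⟩ := asmAbs_gauss (A := ↥OK) (asmα M' q K₁) (asmβ M' q K₁) hαA q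
    hprime hdα xF hxtr _ _ hpir₁ hpir₂ hO hu₁ hu₂ hgauss V20 V11 V02 Y₁ Z h
  rw [hαx] at g1 g2 g3 g4 g5
  have hd20 : IsDiscreteValuationRing V20 :=
    Fermat.Agent.H87.SS2.isDVR_of_dkUnif h.pir₂₀ h.unif₂₀
  have hd11 : IsDiscreteValuationRing V11 :=
    Fermat.Agent.H87.SS2.isDVR_of_dkUnif h.pir₁₁ h.unif₁₁
  have hd02 : IsDiscreteValuationRing V02 :=
    Fermat.Agent.H87.SS2.isDVR_of_dkUnif h.pir₀₂ h.unif₀₂
  obtain ⟨n1, n2, n3, n4⟩ := normRedConstAt_val3 ↥OK (asmα M' q K₁) (asmβ M' q K₁) hαA hβA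
    _ _ hpir₁ hpir₂ hA₁ hA₂ V20 V11 V02 q hq.pos Y₁ Z hu₁ hu₂ hdα hdβ h
  exact
    { chart := hx
      val3 := h
      pir₁ := hpir₁
      pir₂ := hpir₂
      unif₁ := hu₁
      unif₂ := hu₂
      comap₁ := hc₁
      comap₂ := hc₂
      degα := hdα
      degβ := hdβ
      gauss := g1
      vert := g2
      vert20 := g3
      vert11 := g4
      vert02 := g5
      approx := asmAbs_approx V20 V11 V02 h.ne₁ h.ne₂ h.ne₃ hd20 hd11 hd02
      nrα₁ := n1
      nrα₂ := n2
      nrβ₁ := n3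
      nrβ₂ := n4 }

end Fermat.Agent.H61.SS2
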