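import Fermat.Agent.H83.SS2.Val3
import Fermat.Agent.H68.SS2.NormRedVal3
import Fermat.Agent.H37.SS2.WeakApprox
import Fermat.Agent.H11.SS2.Defs

/-!
# P-SS2 row 905 (b) ASM, part (G) GLOBAL, abstract layer (helper61)

The GLOBAL hypotheses of `Fermat.Agent.H19.SS2.AsmCoreStatement` from the keystone interface
`Fermat.Agent.H11.SS2.Val3Data`, in the abstract setting: `A` a discrete valuation ring with
uniformiser the prime `q`, `α β : F →+* E` of degree `q`, `O₁ ≠ O₂` the two vertical valuations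
of `F` (`C_F(x) = O₁ ∩ O₂`), `V₂₀, V₁₁, V₀₂` the three valuations of `E` with `Val3Data`.

* `asmAbs_gauss` : `C_E(α x) = V₂₀ ∩ V₁₁ ∩ V₀₂`, the three are vertical, and every vertical
  valuation of the chart `α x` is one of them (helper83's `val3` along `α`);
* `asmAbs_unif` : the uniformisers `q`, `Z`, `q` and `Z ^ q / q ∈ V₁₁`;
* `asmAbs_approx` : weak approximation for `V₂₀, V₁₁, V₀₂` (helper37's `weakApprox_dvr`);
* the four norm reductions are helper68's `normRedConstAt_val3`.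
-/

set_option autoImplicit false
set_option linter.style.haveILetI false
set_option linter.unusedSectionVars false

noncomputable section

namespace Fermat.Agent.H61.SS2

open Fermat.Agent.H22.KL Fermat.Agent.H11.SS2

section Abs

variable {A : Type} [CommRing A] [IsDomain A]
  {F E : Type} [Field F] [Field E] [CharZero F] [Algebra A F] [Algebra A E]

/-- **Gauss closure and vertical valuations at the upper level** (helper83's `val3` along
`α`). -/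
theorem asmAbs_gauss (α β : F →+* E) (hαA : ∀ a, α (algebraMap A F a) = algebraMap A E a)
    (q : ℕ) (hqA : Prime ((q : ℕ) : A))
    (hdα : @FiniteDimensional F E _ _ (@Algebra.toModule F E _ _ α.toAlgebra) ∧
      @Module.finrank F E _ _ (@Algebra.toModule F E _ _ α.toAlgebra) = q)
    (x : F) (hx : Transcendental A x)
    (O₁ O₂ : ValuationSubring F) (hO₁ : IsPrincipalIdealRing O₁) (hO₂ : IsPrincipalIdealRing O₂)
    (hO : O₁ ≠ O₂) (hu₁ : DKUnif O₁ (q : F)) (hu₂ : DKUnif O₂ (q : F))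
    (hgauss : ∀ z : F, z ∈ gaussClosure A F ((q : ℕ) : A) x ↔ z ∈ O₁ ∧ z ∈ O₂)
    (V₂₀ V₁₁ V₀₂ : ValuationSubring E) (Y₁ : F) (Z : E)
    (h : Val3Data α β O₁ O₂ V₂₀ V₁₁ V₀₂ q Y₁ Z) :
    (∀ z : E, z ∈ gaussClosure A E ((q : ℕ) : A) (α x) ↔ z ∈ V₂₀ ∧ z ∈ V₁₁ ∧ z ∈ V₀₂) ∧
    (∀ V' : ValuationSubring E, IsVertical A E ((q : ℕ) : A) (α x) V' →
      V' = V₂₀ ∨ V' = V₁₁ ∨ V' = V₀₂) ∧
    IsVertical A E ((q : ℕ) : A) (α x) V₂₀ ∧ IsVertical A E ((q : ℕ) : A) (α x) V₁₁ ∧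
    IsVertical A E ((q : ℕ) : A) (α x) V₀₂ := by
  letI : Algebra F E := α.toAlgebra
  haveI : IsScalarTower A F E := IsScalarTower.of_algebraMap_eq (fun a => (hαA a).symm)
  haveI : FiniteDimensional F E := hdα.1
  haveI : Algebra.IsSeparable F E := inferInstance
  have hq1 : 1 ≤ q := by
    rcases Nat.eq_zero_or_pos q with h0 | h0
    · exfalso
      rw [h0, Nat.cast_zero] at hqA
      exact hqA.ne_zero rfl
    · exact h0
  have hqF : algebraMap A F ((q : ℕ) : A) = (q : F) := map_natCast _ q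
  have hαq : α (q : F) = (q : E) := map_natCast α q
  have key := Fermat.Agent.H83.SS2.val3 (A := A) (F := F) (E := E) hqA hx (q - 1) q
    (by rw [hdα.2]; omega) (le_of_eq hdα.2) O₁ O₂ hO₁ hO₂ hO (q : F) (q : F)
    hu₁.1 hu₁.2.1 hu₁.2.2 hu₂.1 hu₂.2.1 hu₂.2.2
    (by rw [hqF]; exact hu₁.1) (by rw [hqF]; exact hu₁.2.1) (by rw [hqF]; exact hu₂.2.1)
    hgauss V₂₀ V₁₁ V₀₂ h.comap₂₀α h.comap₁₁α h.comap₀₂α h.ne₁ Z h.unif₁₁.2.1 h.unif₁₁.1
    (by
      show α (q : F) / Z ^ (q - 1) ∈ V₁₁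
      rw [hαq]
      exact h.ram₁₁.1)
    Z h.Z₀₂.1 h.insep₀₂α.2.2
  obtain ⟨k1, -, -, k4, k5, -, -⟩ := key
  refine ⟨k1, ?_, k5 V₂₀ (Or.inl rfl), k5 V₁₁ (Or.inr (Or.inl rfl)),
    k5 V₀₂ (Or.inr (Or.inr rfl))⟩
  intro V' hV'
  exact k4 V' hV'.1 hV'.2.2.1

/-- **The uniformisers.** -/
theorem asmAbs_unif (α β : F →+* E) (q : ℕ) (hq : 1 ≤ q)
    (O₁ O₂ : ValuationSubring F) (V₂₀ V₁₁ V₀₂ : ValuationSubring E) (Y₁ : F) (Z : E)
    (h : Val3Data α β O₁ O₂ V₂₀ V₁₁ V₀₂ q Y₁ Z) :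
    IsUniformiser E V₂₀ (q : E) ∧ IsUniformiser E V₁₁ Z ∧ Z ^ q / (q : E) ∈ V₁₁ ∧
      IsUniformiser E V₀₂ (q : E) := by
  refine ⟨h.unif₂₀, h.unif₁₁, ?_, h.unif₀₂⟩
  have hZ : Z ∈ V₁₁ := Fermat.Agent.H83.SS2.mem_of_mem_nonunits V₁₁ h.unif₁₁.2.1
  have h1 : ((q : E) / Z ^ (q - 1))⁻¹ ∈ V₁₁ := h.ram₁₁.2
  have h2 : Z ^ q / (q : E) = Z * ((q : E) / Z ^ (q - 1))⁻¹ := by
    rw [inv_div, ← mul_div_assoc, ← pow_succ', Nat.sub_add_cancel hq]
  rw [h2]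
  exact V₁₁.mul_mem _ _ hZ h1

/-- **Weak approximation** for the three vertical valuations. -/
theorem asmAbs_approx (V₂₀ V₁₁ V₀₂ : ValuationSubring E)
    (h1 : V₂₀ ≠ V₁₁) (h2 : V₂₀ ≠ V₀₂) (h3 : V₁₁ ≠ V₀₂)
    (hd₂₀ : IsDiscreteValuationRing V₂₀) (hd₁₁ : IsDiscreteValuationRing V₁₁)
    (hd₀₂ : IsDiscreteValuationRing V₀₂) (a b c : E) :
    ∃ g : E, g - a ∈ V₂₀.nonunits ∧ g - b ∈ V₁₁.nonunits ∧ g - c ∈ V₀₂.nonunits := by
  classical
  let W : Fin 3 → ValuationSubring E := ![V₂₀, V₁₁, V₀₂]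
  have hW : Function.Injective W := by
    intro i j hij
    fin_cases i <;> fin_cases j <;> simp_all [W]
  have hdvr : ∀ i, IsDiscreteValuationRing (W i) := by
    intro i
    fin_cases i
    exacts [hd₂₀, hd₁₁, hd₀₂]
  -- uniformisers
  have hex : ∀ i, ∃ t : E, t ≠ 0 ∧ t ∈ (W i).nonunits := by
    intro i
    haveI := hdvr i
    obtain ⟨ϖ, hϖ⟩ := IsDiscreteValuationRing.exists_irreducible (W i)
    refine ⟨(ϖ : E), fun h0 => hϖ.ne_zero (Subtype.ext h0), ?_⟩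
    exact ValuationSubring.coe_mem_nonunits_iff.2
      ((IsLocalRing.mem_maximalIdeal ϖ).2 hϖ.not_isUnit)
  choose t ht0 ht using hex
  obtain ⟨g, hg⟩ := Fermat.Agent.H37.SS2.weakApprox_dvr W hW hdvr ![a, b, c] t ht0
  have hmem : ∀ i, g - ![a, b, c] i ∈ (W i).nonunits := by
    intro i
    obtain ⟨c', hc', hgc⟩ := hg i
    rw [hgc]
    exact Fermat.Agent.H83.SS2.mul_mem_nonunits (W i) (ht i) hc'
  exact ⟨g, hmem 0, hmem 1, hmem 2⟩

end Abs

end Fermat.Agent.H61.SS2
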