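import Fermat.Agent.H12.SS2.Reg11Pkg
import Fermat.Agent.H38.SS2.NormThetaU
import Fermat.Agent.H16.SS2ThetaW
import Fermat.Agent.H95.SS2.SimpleYDefs
import Fermat.Agent.H48.SS.HauptBasics
import Fermat.Agent.H19.SS2.KcAbsH11

/-!
# P-SS2 row 1108 (SS2-C5j REG11-PKG, helper61): the concrete norm package of REG11

`reg11Pkg M' q h4 hq hq2 hqM hSY : Fermat.Agent.H12.SS2.Reg11PkgStatement M' q` from

* helper38's norm identity `N_α(Z) = q w u` (`Fermat.Agent.H38.SS2.normThetaU`, unconditional),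
* helper48's `modelHauptBasics` (`H`, `H_q`, `1 / (H_q (H_q + 16))` are integral over `A₀[j]`),
* helper16's `thetaW_isLocUnit` (`w` is a local unit off the component `V_0`),
* helper95's SIMPLE-Y (`Fermat.Agent.H95.SS2.SimpleYStatement`, a hypothesis).
-/

set_option autoImplicit false
set_option linter.style.haveILetI false
set_option linter.unusedSectionVars false
set_option maxSynthPendingDepth 3
set_option synthInstance.maxHeartbeats 400000
set_option maxHeartbeats 1600000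

noncomputable section

namespace Fermat.Agent.H61.SS2

open Polynomial ModularCurve AlgebraicCurve
open Fermat.Agent.H22.KL Fermat.Agent.H11.SS2 Fermat.Agent.H82.SS Fermat.Agent.H7.SS2
open Fermat.Agent.H86.SS2 Fermat.Agent.H8.SS

/-- An integer polynomial in two elements of a subalgebra lies in the subalgebra. -/
theorem evalEval_mem_subalgebra {A E : Type} [CommRing A] [CommRing E] [Algebra A E]
    (S : Subalgebra A E) (R : Polynomial (Polynomial ℤ)) {a b : E} (ha : a ∈ S) (hb : b ∈ S) :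
    (R.map (Polynomial.eval₂RingHom (Int.castRingHom E) a)).eval b ∈ S := by
  rw [Polynomial.eval_map, Polynomial.eval₂_eq_sum_range]
  refine Subalgebra.sum_mem _ (fun i _ => Subalgebra.mul_mem _ ?_ (Subalgebra.pow_mem _ hb i))
  rw [Polynomial.coe_eval₂RingHom, Polynomial.eval₂_eq_sum_range]
  refine Subalgebra.sum_mem _ (fun j _ => Subalgebra.mul_mem _ ?_ (Subalgebra.pow_mem _ ha j))
  rw [eq_intCast]
  exact intCast_mem S _

/-- **REG11-PKG** (row 1108): the concrete norm package of REG11 at level `M' q`. -/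
theorem reg11Pkg_of (M' q : ℕ) [NeZero M'] [NeZero q] (h4 : 4 ∣ M') (hq : q.Prime) (hq2 : q ≠ 2)
    (hqM : ¬ q ∣ M') (hNT : Fermat.Agent.H38.SS2.NormThetaStatement M' q)
    (hSY : Fermat.Agent.H95.SS2.SimpleYStatement M' q) :
    Fermat.Agent.H12.SS2.Reg11PkgStatement M' q := by
  obtain ⟨m, R, hNT'⟩ := hNT hq hq2 h4 hqM
  intro K₁ _ _ _ A₀ _ _ _ _ _ _ _ hirr x hx W hW Z hZ Y₁ hY₁
  classical
  haveI : CharZero K₁ := algebraRat.charZero K₁
  haveI : CharZero (ModelField K₁ (M' * q)) :=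
    charZero_of_injective_algebraMap (algebraMap K₁ (ModelField K₁ (M' * q))).injective
  obtain ⟨Θ, u, w, hΘ, -, huE, hw, hnorm⟩ := hNT' K₁ Z hZ
  have hqA : ¬ IsUnit ((q : ℕ) : A₀) := hirr.not_isUnit
  obtain ⟨-, H, Hq, -, uq, hH, hHq, hHB, hHqB, -, huqB, -, huq, -, -⟩ :=
    Fermat.Agent.H48.SSHaupt.modelHauptBasics M' q h4 hq hq2 hqM K₁ A₀ hqA x hx W hW
  set B := chartClosure A₀ (ModelField K₁ (M' * q)) x with hB
  have hqE : algebraMap A₀ (ModelField K₁ (M' * q)) ((q : ℕ) : A₀) =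
      ((q : ℕ) : ModelField K₁ (M' * q)) := map_natCast _ q
  -- `Y₁ = H - H_q ^ q`
  have hY₁eq : Y₁ = H - Hq ^ q := by
    apply Subtype.ext
    rw [hY₁]
    show sY1 K₁ q = (H : LaurentSeries K₁) - (Hq : LaurentSeries K₁) ^ q
    rw [hH, hHq]
    rfl
  have hY₁B : Y₁ ∈ B := by
    rw [hY₁eq]
    exact Subalgebra.sub_mem _ hHB (Subalgebra.pow_mem _ hHqB q)
  -- the unit `e = D(H_q) ^ m`
  have h16 : (16 : ModelField K₁ (M' * q)) ∈ B := by
    have : (16 : ModelField K₁ (M' * q)) = ((16 : ℕ) : ModelField K₁ (M' * q)) := by norm_num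
    rw [this]
    exact natCast_mem _ 16
  have hDB : Hq * (Hq + 16) ∈ B := Subalgebra.mul_mem _ hHqB (Subalgebra.add_mem _ hHqB h16)
  set e : B := ⟨Hq * (Hq + 16), hDB⟩ ^ m with he
  have heu : IsUnit e := by
    refine IsUnit.pow m (isUnit_iff_exists_inv.mpr ⟨⟨uq, huqB⟩, ?_⟩)
    apply Subtype.ext
    show Hq * (Hq + 16) * uq = 1
    exact (mul_comm (Hq * (Hq + 16)) uq).trans huq
  have hecoe : (e : ModelField K₁ (M' * q)) = (Hq * (Hq + 16)) ^ m := by
    rw [he]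
    rfl
  -- `c = - R(H_q, H)`
  have hRB : (R.map (Polynomial.eval₂RingHom
      (Int.castRingHom (ModelField K₁ (M' * q))) Hq)).eval H ∈ B :=
    evalEval_mem_subalgebra B R hHqB hHB
  set c : B := -⟨_, hRB⟩ with hc
  have huval := huE H Hq hH hHq
  have hueq : u = (e : ModelField K₁ (M' * q)) * Y₁ +
      algebraMap A₀ (ModelField K₁ (M' * q)) ((q : ℕ) : A₀) * (c : ModelField K₁ (M' * q)) := by
    rw [huval, hecoe, hqE, hY₁eq, hc]
    show _ = _ + _ * (-((R.map (Polynomial.eval₂RingHom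
      (Int.castRingHom (ModelField K₁ (M' * q))) Hq)).eval H))
    ring
  have huB : u ∈ B := by
    rw [hueq]
    exact Subalgebra.add_mem _ (Subalgebra.mul_mem _ e.2 hY₁B)
      (Subalgebra.mul_mem _ (Subalgebra.algebraMap_mem _ _) c.2)
  refine ⟨hY₁B, e, c, ⟨u, huB⟩, w, heu, hueq, ?_, ?_⟩
  · rw [hqE]
    exact hnorm
  · intro 𝔪' h𝔪' hq𝔪' _ hnot
    constructor
    · exact Fermat.Agent.H16.SS2.thetaW_isLocUnit M' q h4 hq hq2 hqM K₁ A₀ hqA _ hirr x hx W hW
        Θ w hΘ m hw 𝔪' h𝔪' hq𝔪' (Fermat.Agent.H19.SS2.kcAway_of_not_through hnot)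
    · have hH' : (H : LaurentSeries K₁) = coeffEmb K₁ (h4S ℚ) := by
        rw [hH, coeffEmb, coeffMap_h4S]
      have hHq' : (Hq : LaurentSeries K₁) = qExpand K₁ q (coeffEmb K₁ (h4S ℚ)) := by
        rw [hHq, coeffEmb, coeffMap_h4S]
      exact hSY K₁ A₀ hirr x hx W hW H Hq hH' hHq' 𝔪' h𝔪' hq𝔪' hnot ⟨Y₁, hY₁B⟩ hY₁eq

/-- **REG11-PKG** with helper38's unconditional norm identity plugged in. -/
theorem reg11Pkg (M' q : ℕ) [NeZero M'] [NeZero q] (h4 : 4 ∣ M') (hq : q.Prime) (hq2 : q ≠ 2)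
    (hqM : ¬ q ∣ M') (hSY : Fermat.Agent.H95.SS2.SimpleYStatement M' q) :
    Fermat.Agent.H12.SS2.Reg11PkgStatement M' q :=
  reg11Pkg_of M' q h4 hq hq2 hqM (Fermat.Agent.H38.SS2.normThetaU M' q) hSY

end Fermat.Agent.H61.SS2
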